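import Fermat.Statements.S20
import Fermat.Agent.S20.SkelCount
import Fermat.Agent.S20.H34_Bridge
import Fermat.Agent.S20.H69_PHI
import Fermat.Agent.S20.H78_Adapters

set_option autoImplicit false
open CuspForm

namespace Fermat.Agent.S20

/-- the coset space `SL(2, ℤ) ⧸ Γ₀(N)` satisfies the hypotheses of the abstract count -/
theorem goodX_QN (N : ℕ) [NeZero N] : Skel.GoodX (Skel.QN N) :=
  ⟨⟨QuotientGroup.mk 1⟩, H69.isPretransitive_QN N, H69.neg_one_smul_QN N, H69.exists_sep N⟩

theorem result (N : ℕ) [NeZero N] :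
    (Module.finrank ℂ (CuspForm (CongruenceSubgroup.Gamma0 N) 2) : ℚ) = ModularCurve.genusFormula N := by
  have h := Skel.main_abstract (goodX_QN N)
  rw [H78.card_subtype_fixed_S, H78.card_subtype_fixed_ST, H78.fintype_card_quotient_Gamma0,
    H78.card_orbits_T_inst] at h
  apply H78.eq_genusFormula_of_twelve_mul
  rw [← h]
  congr 2
  exact H34.finrank_cuspForm_eq N 2

end Fermat.Agent.S20
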