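-- Statement S18 (row 17): `z = 0` for prime-to-`ℓ` torsion `z ∈ J₀(N)(ℚ̄)` with trivial reduction
-- mod `ℓ` (`ℓ ∤ N`).  Proof: S18 project (route Q of (GR) + ČECH-GENUS + ASSEMBLY), see
-- `Fermat/Agent/S18/`; final wiring `H13.s18_of_hGRfin` (model, `(S)`, `hGRinf` = cusp chart)
-- with `H13.hGRfin_A0` (Hesse chart for `ℓ = 2`, Legendre chart for `ℓ` odd).
import Fermat.Statements.S18
import Fermat.Agent.S18.H13_S18OfGRfin
import Fermat.Agent.S18.H13_GRFinA0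

set_option autoImplicit false
open ModularCurve

namespace Fermat.Agent.S18

theorem result (N : ℕ) [NeZero N] {ℓ : ℕ}
    [Fact ℓ.Prime] (hℓN : ¬ ℓ ∣ N) (A : ValuationSubring (AlgebraicClosure ℚ)) (hA : A.LiesOverPrime ℓ)
    (h : ModularCurve.ReductionInputsModL A N) (m : ℕ) (hm : ¬ ℓ ∣ m) (z : ModularCurve.JZero N)
    (hmz : m • z = 0) (hz : ModularCurve.reductionModL A N z = 0) :
    z = 0 :=
  Fermat.Agent.S18.H13.s18_of_hGRfin N hℓN A hA
    (fun M γ hγ => Fermat.Agent.S18.H13.hGRfin_A0 N hℓN A hA M γ hγ) h m hm z hmz hz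

end Fermat.Agent.S18
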