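-- Statement S37 (row 36): Eichler–Shimura congruence relation in the packaged form
-- `SpecializationExists`.  Stage 2 (`Fermat/Agent/S37/`, `H82.specializationExists_of_stage1`)
-- from the two Stage-1 inputs: frozen S18 (`Fermat.Agent.S18.result`) and R-EXIST
-- (`Fermat.Agent.S18.H13.reductionInputsModL_inst`).
import Fermat.Statements.S37
import Fermat.Agent.S37.H82_S37Stage1
import Fermat.Agent.S18
import Fermat.Agent.S18.H13_RExistInst

set_option autoImplicit false
open ModularCurve

namespace Fermat.Agent.S37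

theorem result (N p : ℕ) [NeZero N] (hcomm : ModularCurve.HeckeOperatorsCommuteBar N) : letI := ModularCurve.heckeModuleBar N; ∀ (_ : SMulCommClass (AlgebraicClosure ℚ ≃ₐ[ℚ] AlgebraicClosure ℚ) ModularCurve.HeckeAlg (ModularCurve.JZero N)), ModularCurve.SpecializationExists (K := ℚ) (L := AlgebraicClosure ℚ) N p (ModularCurve.JZero N) :=
  Fermat.Agent.S37.H82.specializationExists_of_stage1 N p hcomm
    (fun ℓ hℓ hℓN A hA =>
      haveI : Fact ℓ.Prime := ⟨hℓ⟩
      Fermat.Agent.S18.H13.reductionInputsModL_inst N hℓN A hA)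
    (fun {_} _ hℓN A hA h m hm z hmz hz =>
      Fermat.Agent.S18.result N hℓN A hA h m hm z hmz hz)

end Fermat.Agent.S37
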