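import Fermat.Statements.S02
import Fermat.Agent.S02.Core

set_option autoImplicit false
open FreyPackage

namespace Fermat.Agent.S02

theorem result (a b c : ℤ) (ha : a ≠ 0) (hb : b ≠ 0) (hc : c ≠ 0) (p : ℕ) (pp : p.Prime) (hp5 : 5 ≤ p) (H : a ^ p + b ^ p = c ^ p) : Nonempty FreyPackage := by
  have hp0 : p ≠ 0 := by omega
  have hgpos : 0 < Int.gcd a b := Int.gcd_pos_of_ne_zero_left b ha
  obtain ⟨g, a', b', hg, hcop, ha', hb'⟩ := Int.exists_gcd_one' hgpos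
  have hg0 : (g : ℤ) ≠ 0 := by exact_mod_cast hg.ne'
  have hgc : (g : ℤ) ∣ c := by
    rw [← Int.pow_dvd_pow_iff hp0, ← H, ha', hb', mul_pow, mul_pow]
    exact dvd_add (dvd_mul_left _ _) (dvd_mul_left _ _)
  obtain ⟨c', hc'⟩ := hgc
  have ha0 : a' ≠ 0 := by rintro rfl; exact ha (by rw [ha', zero_mul])
  have hb0 : b' ≠ 0 := by rintro rfl; exact hb (by rw [hb', zero_mul])
  have hc0 : c' ≠ 0 := by rintro rfl; exact hc (by rw [hc', mul_zero])
  refine coprime_case a' b' c' ha0 hb0 hc0 p pp hp5 ?_ ?_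
  · have hgp : ((g : ℤ)) ^ p ≠ 0 := pow_ne_zero _ hg0
    apply mul_left_cancel₀ hgp
    rw [ha', hb', hc'] at H
    rw [mul_add, ← mul_pow, ← mul_pow, ← mul_pow, ← H]
    ring
  · exact congr_arg ((↑) : ℕ → ℤ) hcop

end Fermat.Agent.S02
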