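import Fermat.Statements.S08
-- import your own Fermat.Agent.* helpers here

set_option autoImplicit false
open WeierstrassCurve WeierstrassCurve.Affine WeierstrassCurve.Affine.Point
open CuspForm ModularFormClass UpperHalfPlane
open ModularForm

namespace Fermat.Agent.S08

theorem gamma0_one_eq_top : CongruenceSubgroup.Gamma0 1 = ⊤ := by
  ext g
  simp only [Subgroup.mem_top, iff_true]
  change ((g 1 0 : ℤ) : ZMod 1) = 0
  exact Subsingleton.elim _ _

theorem map_gamma0_one_eq_range :
    Subgroup.map (Matrix.SpecialLinearGroup.mapGL ℝ) (CongruenceSubgroup.Gamma0 1)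
      = (Matrix.SpecialLinearGroup.mapGL ℝ : Matrix.SpecialLinearGroup (Fin 2) ℤ →* _).range := by
  rw [gamma0_one_eq_top, MonoidHom.range_eq_map]

theorem cuspForm_eq_zero_of_eq_range (Γ : Subgroup (GL (Fin 2) ℝ))
    (h : Γ = (Matrix.SpecialLinearGroup.mapGL ℝ : Matrix.SpecialLinearGroup (Fin 2) ℤ →* _).range)
    (f : CuspForm Γ 2) : f = 0 := by
  subst h
  exact rank_zero_iff_forall_zero.mp
    (CuspForm.rank_eq_zero_of_weight_lt_twelve (k := 2) (by norm_num)) f

theorem result (f : CuspForm (CongruenceSubgroup.Gamma0 1) 2) : f = 0 := by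
  exact cuspForm_eq_zero_of_eq_range _ map_gamma0_one_eq_range f

end Fermat.Agent.S08
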