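import Fermat.Statements.S10
import Fermat.Agent.Kummer.H44_Wiring
import Fermat.Agent.Kummer.H75_KummerLemma
import Fermat.Agent.Kummer.H91_PID7
import Fermat.Agent.Kummer.H91_PID13

set_option autoImplicit false
open WeierstrassCurve WeierstrassCurve.Affine WeierstrassCurve.Affine.Point
open CuspForm ModularFormClass UpperHalfPlane
open FreyPackage

namespace Fermat.Agent.S10

theorem result (P : FreyPackage) (hp : P.p = 5 ∨ P.p = 7 ∨ P.p = 13) : ¬ HasGaloisStableCofixedLine (K := AlgebraicClosure ℚ) ℚ P.freyCurve P.p := by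
  exfalso
  rcases hp with hp | hp | hp
  · have : Fact (Nat.Prime 5) := ⟨by norm_num⟩
    have hc : IsCyclotomicExtension {5} ℚ (CyclotomicField 5 ℚ) :=
      CyclotomicField.isCyclotomicExtension 5 ℚ
    refine Fermat.Agent.Kummer.H44.false_of_freyPackage_of_eq (q := 5) (by norm_num)
      (IsCyclotomicExtension.Rat.five_pid (CyclotomicField 5 ℚ)) ?_ P hp
    intro u hu
    exact Fermat.Agent.Kummer.H75.kummer_lemma_small (K := CyclotomicField 5 ℚ) (p := 5)
      (by norm_num) u hu
  · have : Fact (Nat.Prime 7) := ⟨by norm_num⟩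
    have hc : IsCyclotomicExtension {7} ℚ (CyclotomicField 7 ℚ) :=
      CyclotomicField.isCyclotomicExtension 7 ℚ
    refine Fermat.Agent.Kummer.H44.false_of_freyPackage_of_eq (q := 7) (by norm_num)
      (Fermat.Agent.Kummer.H91.seven_pid (CyclotomicField 7 ℚ)) ?_ P hp
    intro u hu
    exact Fermat.Agent.Kummer.H75.kummer_lemma_small (K := CyclotomicField 7 ℚ) (p := 7)
      (by norm_num) u hu
  · have : Fact (Nat.Prime 13) := ⟨by norm_num⟩
    have hc : IsCyclotomicExtension {13} ℚ (CyclotomicField 13 ℚ) :=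
      CyclotomicField.isCyclotomicExtension 13 ℚ
    refine Fermat.Agent.Kummer.H44.false_of_freyPackage_of_eq (q := 13) (by norm_num)
      (Fermat.Agent.Kummer.H91.thirteen_pid (CyclotomicField 13 ℚ)) ?_ P hp
    intro u hu
    exact Fermat.Agent.Kummer.H75.kummer_lemma_small (K := CyclotomicField 13 ℚ) (p := 13)
      (by norm_num) u hu

end Fermat.Agent.S10
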