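import Fermat.Statements.S11
import Fermat.Agent.Kummer.H44_Wiring
import Fermat.Agent.Kummer.H61_KummerLemma
import Fermat.Agent.Kummer.H91_PID11

set_option autoImplicit false
open WeierstrassCurve WeierstrassCurve.Affine WeierstrassCurve.Affine.Point
open CuspForm ModularFormClass UpperHalfPlane
open FreyPackage

namespace Fermat.Agent.S11

/-- Fermat's Last Theorem for the exponent `11` (Kummer): no Frey package has `p = 11`. -/
theorem no_freyPackage_eleven (P : FreyPackage) (hp : P.p = 11) : False := by
  have hc : IsCyclotomicExtension {11} ℚ (CyclotomicField 11 ℚ) :=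
    CyclotomicField.isCyclotomicExtension 11 ℚ
  have : Fact (Nat.Prime 11) := ⟨by norm_num⟩
  exact Fermat.Agent.Kummer.H44.false_of_freyPackage_of_eq (q := 11) (by norm_num)
    (Fermat.Agent.Kummer.H91.eleven_pid (CyclotomicField 11 ℚ))
    (fun u hu => Fermat.Agent.Kummer.H61.kummer_lemma (K := CyclotomicField 11 ℚ) (p := 11)
      (by norm_num) u hu) P hp

theorem result (P : FreyPackage) (hp : P.p = 11) : ¬ HasGaloisStableCofixedLine (K := AlgebraicClosure ℚ) ℚ P.freyCurve P.p := by
  exact (no_freyPackage_eleven P hp).elim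

end Fermat.Agent.S11
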