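import Fermat.Statements.S14
import Fermat.Agent.S14.H67_CrossingAll
import Fermat.Agent.S14.H82_AuxPrimeMain
import Fermat.Agent.S14.H90_CrossFieldsExist

/-!
# S14 : vanishing of `Ext` for the continuous cyclotomic character (`3 ≤ p`)

Final assembly (project S14, coordinator helper14).  The statement is reduced in
`H67.extVanishingCts_of_auxPrime_of_crossFields` to two inputs:

* the auxiliary prime (`H82.exists_aux_prime`, Kummer theory + density of split primes);
* the crossing fields (`H90.nonempty_crossFields`).

Everything else (reduction to unramified cyclic degree `p` extensions of `ℚ(ζ_p)`, the first and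
second inequalities of class field theory for cyclic extensions of prime degree, Artin reciprocity by
crossing with cyclotomic extensions, Stickelberger's theorem, the reflection argument) lives in
`Fermat/Agent/S14/`.
-/

set_option autoImplicit false
open ExtCitation

namespace Fermat.Agent.S14

theorem result {p : ℕ} [Fact p.Prime] (h3 : 3 ≤ p) :
    ExtCitation.ExtVanishingCts p :=
  H67.extVanishingCts_of_auxPrime_of_crossFields h3
    (fun hq0 hq1 h01 h0p h1p _ _ hf0 hf1 e =>
      H82.exists_aux_prime (Fact.out : p.Prime) (by omega) hq0 hq1 h01 h0p h1p hf0 hf1 e)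
    (fun K L _ _ _ _ _ _ _ _ hKL hunr m hm hmp hm1 s0 hs0 n0 hn0 =>
      H90.nonempty_crossFields (Fact.out : p.Prime) (by omega) hm hmp hm1 K L hKL hunr
        s0 hs0 n0 hn0)

end Fermat.Agent.S14
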