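-- Statement S16 (row 15): `#(𝕋 / I) = n`, `n` the numerator of `(p - 1)/12` (Mazur, prime level).
-- Proof: S16 project, see `Fermat/Agent/S16/`.  Skeleton `(L)` (Shimura class, helper98) + `(U)`
-- (no cusp form congruent to the Eisenstein series beyond `n`; a₁-duality helper52, small levels
-- helper48, assembler helper16); the five `(U)` leaves: `l ≥ 5` (helper46), `(3; p ≡ 1)`,
-- `(2; p ≡ 1 mod 4)`, `(2; p ≡ 3 mod 8)` (constant test, helper63), `(3; p ≡ 2)` (helper17), and
-- `(2; p ≡ 7 mod 8)`: `H39.result_of_hesseCover` (q-series core helper76/helper77/helper36) fed with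
-- the GEO-e instance `H41.exists_embedding_hesse_two` (S18 PURITY at the Hesse chart, helper41).
import Fermat.Statements.S16
import Fermat.Agent.S16.H39_LeafOfCover
import Fermat.Agent.S16.H41_GeoEInst

set_option autoImplicit false
open ModularCurve CuspForm
open ModularCurve

namespace Fermat.Agent.S16

theorem result
    (p : ℕ) [Fact p.Prime] :
    Nat.card (↥(heckeLatticeAlgebra p ∅) ⧸
        Ideal.map ((latticeRestrictHom p ∅).toRingHom.comp (heckeEvalForms p 2))
          (eisensteinIdeal p)) =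
      eisensteinNumerator p := by
  refine H39.result_of_hesseCover.{0} p (fun _ h8 => ?_)
  haveI : NeZero p := ⟨(Fact.out : p.Prime).ne_zero⟩
  have hp2 : ¬ 2 ∣ p := by omega
  obtain ⟨k, hk1, hk2, hk3, κ, hκ, ι', O, μ, -, -, hμ0, hμ, -, -, hnsq, hJμ, hk, -, -⟩ :=
    H41.exists_embedding_hesse_two p hp2
  exact ⟨k, hk1, hk2, hk3, κ, hκ, ι', O, μ, hμ0, hμ, hnsq, hJμ, hk⟩

end Fermat.Agent.S16
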