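-- Statement S24: the genus of the function field of X₀(N) over ℚ̄ is the classical genus formula.
-- Proof: Riemann–Hurwitz for j : X₀(N) → ℙ¹ (team project S24; see Fermat/Agent/S24/).
import Fermat.Statements.S24
import Fermat.Agent.S24.H24_Main
import Fermat.Agent.S24.H40_M123
import Fermat.Agent.S24.H76_Closed

set_option autoImplicit false
open ModularCurve

namespace Fermat.Agent.S24

theorem result (N : ℕ) [NeZero N]
    [AlgebraicCurve.HasCanonicalDivisor (K := AlgebraicClosure ℚ) (F := ↥(ModularCurve.modularFunctionFieldBar N))] :
    (AlgebraicCurve.genus (AlgebraicClosure ℚ) ↥(ModularCurve.modularFunctionFieldBar N) : ℚ)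
      = ModularCurve.genusFormula N := by
  haveI := H40.finiteDimensional_FN N
  exact H24.genus_eq_genusFormula_of_modInputs N (H40.finrank_FN_eq_natCard N)
    (H76.modInputs_final N)

end Fermat.Agent.S24
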