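import Fermat.Statements.S28
import Fermat.Agent.S28.H16_Assembly
import Fermat.Agent.S28.H16_Wrapper
import Fermat.Agent.S28.H16_HasModPoly
import Fermat.Agent.S28.H9_DeltaQuot
import Fermat.Agent.S28.H50_Step
import Fermat.Agent.S28.H40_ChartsOK

set_option autoImplicit false
open AlgebraicGeometry CategoryTheory CategoryTheory.Limits ModularCurve ModularCurve.IgusaScheme
noncomputable section
set_option autoImplicit false
open ModularCurve ModularCurve.IgusaScheme

namespace Fermat.Agent.S28

set_option maxHeartbeats 4000000 in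
set_option synthInstance.maxHeartbeats 400000 in
theorem result
    (N : ℕ) [NeZero N] (ℓ : ℕ) [Fact ℓ.Prime] (hℓN : ¬ ℓ ∣ N)
    (K : Type) [Field K] [CharP K ℓ] [Algebra ↥(GaloisRep.ratLocalizedAt ℓ) K] :
    IsIntegral ↑(pullback (igusaTo N ℓ)
      (Spec.map (CommRingCat.ofHom (algebraMap ↥(GaloisRep.ratLocalizedAt ℓ) K)))) :=
  -- W1: the modular polynomial `Φ_N ∈ ℤ[j][X]` with all its formal conjugates as roots;
  -- W2: `Φ_N mod ℓ` is irreducible over `K(J)` for every field `K` of characteristic `ℓ ∤ N`
  --     (induction over the level; prime core = the `Δ(q^p)/Δ(q)` unit argument);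
  -- W3: both chart rings stay domains after `⊗ K`; W4: gluing of the two charts.
  H16.result_of_packages N ℓ hℓN K (H16.hasModPoly N)
    (fun D hD => H16.irredCharL_of_step
      (fun k _ _ => H50.stepStatement k (fun m _ => H16.hasModPoly m)
        (fun p _ hp => H9.exists_deltaQuotPoly p hp)) N ℓ hℓN D hD)
    (fun D hirr => H40.chartsOK N ℓ K D hirr)

end Fermat.Agent.S28
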