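-- Statement S29 (row 28): a normalised weight-2 eigenform on `Γ₀(N)` has, for every prime `p` and
-- every residue map of `ℤ̄` to a field of characteristic `p`, an attached mod-`p` Galois
-- representation, unramified at all primes not dividing `Np`.
-- Proof: Stage 3 (`Fermat/Agent/S29/`, `H80.s29_of_s37`: (T0) support, (T1) commutation,
-- Kummer–Poincaré, base change descent, endgame `H66.s29_of_stages`) from the frozen S37
-- statement (`Fermat.Agent.S37.result`, Stage 2) alone.
import Fermat.Statements.S29
import Fermat.Agent.S37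
import Fermat.Agent.S29.H80_Final

set_option autoImplicit false
open CuspForm CuspForm.IsNormalizedEigenform

namespace Fermat.Agent.S29

theorem result
    {N : ℕ} {g : CuspForm (CongruenceSubgroup.Gamma0 N) 2} (hg : g.IsNormalizedEigenform)
    {p : ℕ} (hp : p.Prime) {k : Type} [Field k] [CharP k p]
    (φ : integralClosure ℤ ℂ →+* k) :
    ∃ ρ : ResidualGaloisRep k, ρ.IsAttachedTo g φ ∧
      ∀ ℓ : ℕ, ℓ.Prime → ¬ ℓ ∣ N * p → ρ.IsUnramifiedAt ℓ :=
  Fermat.Agent.S29.H80.s29_of_s37 (fun N p _ hc => Fermat.Agent.S37.result N p hc) hg hp φ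

end Fermat.Agent.S29
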