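import Fermat.Statements.S34
import Fermat.Agent.S28.H16_HasModPoly
import Fermat.Agent.S34.H34_FinalSeam
import Fermat.Agent.S34.H40_L0Consumers
import Fermat.Agent.S34.H55_L0Final

set_option autoImplicit false
set_option autoImplicit false
set_option synthInstance.maxHeartbeats 400000
set_option maxHeartbeats 3200000
open IsLocalRing
open CuspForm CuspForm.HeckeGaloisRepDatum

namespace Fermat.Agent.S34

theorem result
    {𝒪 : Type} [CommRing 𝒪] [IsDomain 𝒪] [IsDiscreteValuationRing 𝒪]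
    [IsAdicComplete (maximalIdeal 𝒪) 𝒪] [Finite (ResidueField 𝒪)] [CharZero 𝒪]
    {p : ℕ} (hp : p.Prime) (hp𝒪 : (p : 𝒪) ∈ maximalIdeal 𝒪)
    {N : ℕ} [NeZero N] {S : Finset ℕ} (hpS : p ∈ S) (hNS : ∀ q : ℕ, q.Prime → q ∣ N → q ∈ S)
    {θ : CuspForm.heckeAlgebra N 2 (↑S : Set ℕ) →+* ResidueField 𝒪}
    {T : Type} [CommRing T] [IsLocalRing T] [IsNoetherianRing T]
    [IsAdicComplete (maximalIdeal T) T] [Algebra 𝒪 T] [IsLocalHom (algebraMap 𝒪 T)]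
    [Module.Finite 𝒪 T] [Module.Free 𝒪 T]
    (H : CuspForm.HeckeGaloisRepDatum N (↑S : Set ℕ) 𝒪 θ T)
    (q : ℕ) (hq : q.Prime) (hqp : q ≠ p) (hqN : q ∣ N) (hq2 : ¬ q ^ 2 ∣ N) :
    H.ρ.IsUnipotentOnInertiaAt q := by
  refine Fermat.Agent.S34.H34.isUnipotentOnInertiaAt_of_L0 hp hp𝒪 hpS hNS H q hq hqp hqN hq2
    ?_ ?_ ?_ ?_
  · intro M _ ℓ hℓ hℓM A hA
    haveI : NeZero ℓ := ⟨hℓ.out.ne_zero⟩
    obtain ⟨D, hD⟩ := Fermat.Agent.S28.H16.hasModPoly ℓ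
    obtain ⟨red₁, red₂, hTC⟩ := Fermat.Agent.S34.H55.exists_twoComponents_JK M hℓM A hA D hD
    exact Fermat.Agent.S34.H40.hradB_JK M A hA hTC
  · intro M _ ℓ hℓ hℓM A hA
    haveI : NeZero ℓ := ⟨hℓ.out.ne_zero⟩
    obtain ⟨D, hD⟩ := Fermat.Agent.S28.H16.hasModPoly ℓ
    obtain ⟨red₁, red₂, hTC⟩ :=
      Fermat.Agent.S34.H55.exists_twoComponents_JK_inv M hℓM A hA D hD
    exact Fermat.Agent.S34.H40.hradB_JK_inv M A hA hTC
  · intro M _ ℓ hℓ hℓM A hA n₁ _ hn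
    haveI : NeZero ℓ := ⟨hℓ.out.ne_zero⟩
    obtain ⟨D, hD⟩ := Fermat.Agent.S28.H16.hasModPoly ℓ
    obtain ⟨red₁, red₂, hTC⟩ := Fermat.Agent.S34.H55.exists_twoComponents_JK M hℓM A hA D hD
    exact Fermat.Agent.S34.H40.hL1_JK M hℓM A hA hTC hℓ.out.two_le n₁ hn
  · intro M _ ℓ hℓ hℓM A hA n₁ _ hn
    haveI : NeZero ℓ := ⟨hℓ.out.ne_zero⟩
    obtain ⟨D, hD⟩ := Fermat.Agent.S28.H16.hasModPoly ℓ
    obtain ⟨red₁, red₂, hTC⟩ :=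
      Fermat.Agent.S34.H55.exists_twoComponents_JK_inv M hℓM A hA D hD
    exact Fermat.Agent.S34.H40.hL1_JK_inv M hℓM A hA hTC hℓ.out.two_le n₁ hn

end Fermat.Agent.S34
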