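-- Statement S42 (row 40): for the Frey package's prime `p` and every level `M > 0` the prelude
-- property `EigenformResidualAttachmentAt M` holds.
-- Proof: Stage 3 (`Fermat/Agent/S29/`, `H80.s42_of_s37` = `H66.s42_of_stages`) from the frozen S37
-- statement (`Fermat.Agent.S37.result`, Stage 2) alone.
import Fermat.Statements.S42
import Fermat.Agent.S37
import Fermat.Agent.S29.H80_Final

set_option autoImplicit false
open FreyPackage

namespace Fermat.Agent.S42

theorem result (P : FreyPackage) :
    ∀ M : ℕ, 0 < M → P.EigenformResidualAttachmentAt M :=
  Fermat.Agent.S29.H80.s42_of_s37 (fun N p _ hc => Fermat.Agent.S37.result N p hc) P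

end Fermat.Agent.S42
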