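import Fermat.Statements.S49
import Fermat.Agent.S49.H70_Algebra
import Fermat.Agent.S49.H70_Chibar
import Fermat.Agent.S49.H90_Normalize

set_option autoImplicit false
open CuspForm EisensteinWeightOne CongruenceSubgroup ModularFormClass
open FLT FLT.AbstractIntegralStructure

namespace Fermat.Agent.S49

theorem result
    {N : ℕ} [NeZero N] (h : CuspForm.HasIntegralBasis N) {a : ℕ → ℤ}
    (heig : FormalHecke.IsEigensystem
      (fun ℓ => if ℓ ∣ N then 0 else ((chiNegThree ℓ : ℤ) : ℤ)) a)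
    (hreal : CuspForm.IsLatticeRealized N a) :
    ∃ (f : CuspForm (Gamma0 N) 2) (_ : f.IsNormalizedEigenform)
      (𝔪' : Ideal (integralClosure ℤ ℂ)), 𝔪'.IsMaximal ∧
      ((3 : ℕ) : integralClosure ℤ ℂ) ∈ 𝔪' ∧
      ∀ (ℓ : ℕ) (_ : ℓ.Prime) (_ : ¬ ℓ ∣ N),
        ∃ c : integralClosure ℤ ℂ, (c : ℂ) = ModularFormClass.qCoeff f ℓ ∧
          c - (a ℓ : integralClosure ℤ ℂ) ∈ 𝔪' := by
  classical
  have hfd : FiniteDimensional ℂ (CuspForm (Gamma0 N) 2) := H70.finiteDimensional_cuspForm h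
  obtain ⟨χ, hχ⟩ := H70.exists_chibar heig hreal
  have hp3 : Fact (Nat.Prime 3) := ⟨Nat.prime_three⟩
  let ρ : CuspForm.heckeAlgebra N 2 ∅ →+* Module.End ℂ (CuspForm (Gamma0 N) 2) :=
    (CuspForm.heckeAlgebra N 2 ∅).val.toRingHom
  have hρ : ∀ r, ρ r = (r : Module.End ℂ (CuspForm (Gamma0 N) 2)) := fun _ => rfl
  have hρinj : Function.Injective ρ := Subtype.val_injective
  obtain ⟨v, lam, 𝔪, hv0, hlam, h𝔪max, h𝔪⟩ := H70.exists_lift ρ
    (fun r => H70.isIntegral_of_mem_heckeAlgebra h r.2) χ (ZMod.ringHom_surjective χ)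
    (by rw [(RingHom.injective_iff_ker_eq_bot ρ).mp hρinj]; exact bot_le)
  let lamN : ℕ → ℂ := fun l =>
    if hl : l.Prime then
      (if hN : l ∣ N then (lam (CuspForm.heckeAlgebra.U hl hN (Set.notMem_empty l)) : ℂ)
        else (lam (CuspForm.heckeAlgebra.T hl hN (Set.notMem_empty l)) : ℂ))
    else 0
  have hT : ∀ (l : ℕ) (hl : l.Prime) (hlN : ¬ l ∣ N),
      CuspForm.heckeTLin 2 hl hlN v = lamN l • v := by
    intro l hl hlN
    have := hlam (CuspForm.heckeAlgebra.T hl hlN (Set.notMem_empty l))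
    rw [hρ, CuspForm.heckeAlgebra.coe_T] at this
    simp only [lamN, dif_pos hl, dif_neg hlN]
    exact this
  have hU : ∀ (q : ℕ) (_ : q.Prime) (hqN : q ∣ N),
      CuspForm.heckeULin 2 hqN v = lamN q • v := by
    intro q hq hqN
    have := hlam (CuspForm.heckeAlgebra.U hq hqN (Set.notMem_empty q))
    rw [hρ, CuspForm.heckeAlgebra.coe_U] at this
    simp only [lamN, dif_pos hq, dif_pos hqN]
    exact this
  obtain ⟨-, hnorm, hcoef⟩ := H90.isNormalizedEigenform_of_eigen v hv0 lamN hT hU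
  refine ⟨(qCoeff v 1)⁻¹ • v, hnorm, 𝔪, h𝔪max, ?_, ?_⟩
  · have h3 : ((3 : ℕ) : CuspForm.heckeAlgebra N 2 ∅) ∈ RingHom.ker χ := by
      rw [RingHom.mem_ker, map_natCast]
      exact ZMod.natCast_self 3
    rw [← h𝔪, Ideal.mem_comap, map_natCast] at h3
    exact h3
  · intro ℓ hℓ hℓN
    refine ⟨lam (CuspForm.heckeAlgebra.T hℓ hℓN (Set.notMem_empty ℓ)), ?_, ?_⟩
    · rw [hcoef ℓ hℓ]
      simp only [lamN, dif_pos hℓ, dif_neg hℓN]
    · have h4 : CuspForm.heckeAlgebra.T hℓ hℓN (Set.notMem_empty ℓ) -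
          ((a ℓ : ℤ) : CuspForm.heckeAlgebra N 2 ∅) ∈ RingHom.ker χ := by
        rw [RingHom.mem_ker, map_sub, hχ, map_intCast, sub_self]
      rw [← h𝔪, Ideal.mem_comap, map_sub, map_intCast] at h4
      exact h4

end Fermat.Agent.S49
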