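import Fermat.Statements.S51
import Fermat.Agent.S51.H41_B3
import Fermat.Agent.S51.H84_FiveData
import Fermat.Agent.S51.H74_NoFifteen

set_option autoImplicit false
open WeierstrassCurve WeierstrassCurve.Affine WeierstrassCurve.Affine.Point
open CuspForm ModularFormClass UpperHalfPlane
open WeierstrassCurve

namespace Fermat.Agent.S51

theorem result (W : WeierstrassCurve ℤ) (hΔ : W.Δ ≠ 0) (hW : W.IsSemistableModel) : W.ModRepIsIrreducible 3 ∨ W.ModRepIsIrreducible 5 := by
  by_contra hcon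
  rw [not_or] at hcon
  obtain ⟨x₃, h3⟩ := H41.exists_rat_root_psi3 W hΔ hcon.1
  obtain ⟨u, v, huv, hs, ht, h5a, h5b⟩ := H84.exists_five_data W hΔ hcon.2
  exact H74.no_fifteen W hΔ hW x₃ h3 u v huv hs ht h5a h5b

end Fermat.Agent.S51
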