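import Fermat.Statements.S53
import Fermat.Agent.S53.H53_Assembly
import Fermat.Agent.S53.H68_Main

set_option autoImplicit false
set_option autoImplicit false
open GaloisRep

namespace Fermat.Agent.S53

theorem result
    (𝒪 : Type) [CommRing 𝒪] [IsDomain 𝒪] [IsDiscreteValuationRing 𝒪]
    [IsAdicComplete (IsLocalRing.maximalIdeal 𝒪) 𝒪] [Finite (IsLocalRing.ResidueField 𝒪)]
    (ρbar : ResidualGaloisRep (IsLocalRing.ResidueField 𝒪))
    (𝒟 : ∀ ⦃A : Type⦄ [CommRing A] [IsLocalRing A] [Algebra 𝒪 A], GaloisRepAdic A → Prop)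
    (habs : ρbar.IsAbsolutelyIrreducible)
    (h𝒟 : GaloisRep.IsDeformationCondition 𝒪 𝒟)
    (hbar : 𝒟 (GaloisRepAdic.ofResidualGaloisRep ρbar))
    (hfin : GaloisRep.TangentFinite 𝒪 ρbar 𝒟) :
    Nonempty (GaloisRep.DeformationRingData 𝒪 ρbar 𝒟) := by
  obtain ⟨D⟩ := H53.exists_nfData ρbar habs
  have hF : H68.IsRigid 𝒪 H53.Coord (H53.IsNFLift D 𝒟) :=
    { map := fun A B _ _ _ _ _ _ hA hB φ hφ x hx => H53.IsNFLift.map h𝒟 hA hB φ hφ hx
      of_injective := fun A B _ _ _ _ _ _ hA hB φ hφ hinj x hx =>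
        H53.IsNFLift.of_injective h𝒟 hA hB φ hφ hinj hx
      of_fibreProduct := fun A B C P _ _ _ _ _ _ _ _ _ _ _ _ hA hB hC hP f g pA pB hpA hpB hcomm
          hinj hsurj x hxA hxB =>
        H53.IsNFLift.of_fibreProduct h𝒟 hA hB hC hP f g pA pB hpA hpB hcomm hinj hsurj hxA hxB
      residual_unique := fun x y hx hy =>
        (H53.eq_resCoord_of_isNFLift D hx).trans (H53.eq_resCoord_of_isNFLift D hy).symm
      residual_exists := ⟨H53.resCoord D, H53.isNFLift_resCoord D h𝒟 hbar⟩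
      tangent_finite := H53.finite_isNFLift_dualNumber D 𝒟 hfin }
  obtain ⟨R, _, _, _, _, _, _, hres, u, h1, h2⟩ :=
    H68.exists_prorep 𝒪 H53.Coord (H53.IsNFLift D 𝒟) hF
  exact H53.nonempty_deformationRingData_of_prorep D habs h𝒟 R hres u h1 h2

end Fermat.Agent.S53
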