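import Fermat.Statements.S54
import Fermat.Agent.S54.FrobExists

set_option autoImplicit false
open GaloisRep GaloisRep.DeformationRingData

namespace Fermat.Agent.S54

open Polynomial in
theorem hecke_T_mem_range {R T : Type} [CommRing R] [IsLocalRing R] [CommRing T] [IsLocalRing T]
    (φ : R →+* T) (hφ : IsLocalHom φ) (ρR : GaloisRepAdic R) (ρT : GaloisRepAdic T)
    (hequiv : (ρR.baseChangeAlong φ hφ).IsEquiv ρT)
    (σ : AlgebraicClosure ℚ ≃ₐ[ℚ] AlgebraicClosure ℚ) (a b : T)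
    (hchar : LinearMap.charpoly (ρT.ρ σ) = X ^ 2 - C a * X + C b) : a ∈ φ.range := by
  obtain ⟨e⟩ := hequiv
  let _ : Algebra R T := φ.toAlgebra
  have h1 : ρT.ρ σ = e.toLinearEquiv.conj ((ρR.baseChangeAlong φ hφ).ρ σ) := by
    apply LinearMap.ext
    intro x
    rw [LinearEquiv.conj_apply_apply, e.map_apply, LinearEquiv.apply_symm_apply]
  have h2 : LinearMap.charpoly (ρT.ρ σ) =
      LinearMap.charpoly ((ρR.baseChangeAlong φ hφ).ρ σ) := by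
    rw [h1, LinearEquiv.charpoly_conj]
  have h3 : LinearMap.charpoly ((ρR.baseChangeAlong φ hφ).ρ σ) =
      (LinearMap.charpoly (ρR.ρ σ)).map φ :=
    LinearMap.charpoly_baseChange (ρR.ρ σ) T
  rw [h2, h3] at hchar
  have h4 := congrArg (fun p => p.coeff 1) hchar
  simp only [coeff_map, coeff_add, coeff_sub, coeff_X_pow, coeff_C_mul, coeff_X_one, coeff_C] at h4
  norm_num at h4
  refine ⟨-(LinearMap.charpoly (ρR.ρ σ)).coeff 1, ?_⟩
  rw [map_neg, h4, neg_neg]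

theorem result {𝒪 : Type} [CommRing 𝒪] [IsDomain 𝒪] [IsDiscreteValuationRing 𝒪] [IsAdicComplete (IsLocalRing.maximalIdeal 𝒪) 𝒪] {ρbar : ResidualGaloisRep (IsLocalRing.ResidueField 𝒪)} {𝒟 : ∀ ⦃A : Type⦄ [CommRing A] [IsLocalRing A] [Algebra 𝒪 A], GaloisRepAdic A → Prop} (D : GaloisRep.DeformationRingData 𝒪 ρbar 𝒟) {N : ℕ} [NeZero N] {S : Set ℕ} {θ : CuspForm.heckeAlgebra N 2 S →+* IsLocalRing.ResidueField 𝒪} {T : Type} [CommRing T] [IsLocalRing T] [IsNoetherianRing T] [IsAdicComplete (IsLocalRing.maximalIdeal T) T] [Algebra 𝒪 T] [IsLocalHom (algebraMap 𝒪 T)] [Module.Finite 𝒪 T] [Module.Free 𝒪 T] (H : CuspForm.HeckeGaloisRepDatum N S 𝒪 θ T) (hS : ∀ q : ℕ, q.Prime → q ∣ N → q ∈ S) (h𝒟 : 𝒟 H.ρ) (hres : H.ρ.residual.IsEquiv (ρbar.baseChangeAlong (IsLocalRing.ResidueField.map (algebraMap 𝒪 T)))) : ∃ φ : D.R →ₐ[𝒪] T, Function.Surjective φ ∧ ∃ hφ : IsLocalHom (φ : D.R →+* T),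 (D.ρ.baseChangeAlong (φ : D.R →+* T) hφ).IsEquiv H.ρ := by
  obtain ⟨φ, ⟨hφ, hequiv⟩, -⟩ := D.universal T H.residue_surjective H.ρ h𝒟 hres
  refine ⟨φ, ?_, hφ, hequiv⟩
  rw [← AlgHom.range_eq_top, eq_top_iff, ← H.adjoin_range_π]
  apply Algebra.adjoin_le
  rintro _ ⟨⟨t, ht⟩, rfl⟩
  change H.π ⟨t, ht⟩ ∈ φ.range
  induction ht using Algebra.adjoin_induction with
  | mem x hx =>
    rcases hx with ⟨ℓ, hℓ, hℓN, hℓS, rfl⟩ | ⟨q, hqN, hq, hqS, rfl⟩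
    · obtain ⟨A, σ, hA, hσ⟩ := exists_frobenius ℓ hℓ
      have hchar := H.charpoly_frob ℓ hℓ hℓN hℓS A hA σ hσ
      obtain ⟨r, hr⟩ := hecke_T_mem_range (φ : D.R →+* T) hφ D.ρ H.ρ hequiv σ _ _ hchar
      exact ⟨r, hr⟩
    · exact absurd (hS q hq hqN) hqS
  | algebraMap r =>
    refine ⟨(r : D.R), ?_⟩
    have h1 : (⟨algebraMap ℤ _ r, Subalgebra.algebraMap_mem _ r⟩ : CuspForm.heckeAlgebra N 2 S)
        = ((r : ℤ) : CuspForm.heckeAlgebra N 2 S) := by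
      apply Subtype.ext
      simp
    rw [h1, map_intCast, map_intCast]
  | add x y hx hy hx' hy' =>
    have h1 : (⟨x + y, add_mem hx hy⟩ : CuspForm.heckeAlgebra N 2 S) = ⟨x, hx⟩ + ⟨y, hy⟩ := rfl
    rw [h1, map_add]
    exact add_mem hx' hy'
  | mul x y hx hy hx' hy' =>
    have h1 : (⟨x * y, mul_mem hx hy⟩ : CuspForm.heckeAlgebra N 2 S) = ⟨x, hx⟩ * ⟨y, hy⟩ := rfl
    rw [h1, map_mul]
    exact mul_mem hx' hy'

end Fermat.Agent.S54
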