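-- Statement S55 (Poitou–Tate duality): proof via the CFT project (Fermat/Agent/CFT/*).
-- The statement below is byte-identical to the frozen statement groupCohomology.FermatFrozen.S55.
import Fermat.Statements.S55
import Fermat.Agent.CFT.H91_ExistFinGlobal
import Fermat.Agent.CFT.H24_ExistFinal

set_option autoImplicit false
set_option autoImplicit false
open CategoryTheory Module groupCohomology ExtCitation
open groupCohomology

namespace Fermat.Agent.S55

theorem result
    {p : ℕ} [Fact p.Prime] (hp2 : p ≠ 2) (S : Finset Nat.Primes) (hpS : pPrime p ∈ S)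
    (M : Rep (ZMod p) (AlgebraicClosure ℚ ≃ₐ[ℚ] AlgebraicClosure ℚ))
    [FiniteDimensional (ZMod p) M]
    (hsm : ∀ m : M, ∃ F : IntermediateField ℚ (AlgebraicClosure ℚ), FiniteDimensional ℚ F ∧
      ∀ s ∈ F.fixingSubgroup, M.ρ s m = m)
    (hMur : ∀ q : Nat.Primes, q ∉ S → ∀ A : ValuationSubring (AlgebraicClosure ℚ),
      A.LiesOverPrime (q : ℕ) → ∀ g ∈ A.inertiaSubgroupIn ℚ, M.ρ g = 1) :
    ∃ B : sha₁ S (M.dualTwist (cycloChar p)) →ₗ[ZMod p] sha₂ S M →ₗ[ZMod p] ZMod p,
      (∀ y, (∀ x, B y x = 0) → y = 0) ∧ (∀ x, (∀ y, B y x = 0) → x = 0) := by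
  have hS : S.Nonempty := ⟨pPrime p, hpS⟩
  have hC := Fermat.Agent.CFT.H24.nonempty_pClassFormation p hp2 S hpS
  exact Fermat.Agent.CFT.exists_pairing_of_poitouTateStatement hp2 S hpS
    (Fermat.Agent.CFT.H55.poitouTateStatement_of_inputs p S hp2 hpS
      (Fermat.Agent.CFT.H86.d1Statement p) Fermat.Agent.CFT.H62.d2Statement hC
      (Fermat.Agent.CFT.H20.hasFIN_global hS
        (Fermat.Agent.CFT.H10.finFin S (Fact.out : p.Prime)))
      (Fermat.Agent.CFT.H20.hasEXIST_global hS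
        (Fermat.Agent.CFT.H24.existFin_global hp2 hpS))
      (Fermat.Agent.CFT.H36.d4Concrete p S hpS)
      (Fermat.Agent.CFT.H36.x5Concrete hp2 hpS hC)
      (Fermat.Agent.CFT.H36.muConcrete p S hpS))
    M hsm hMur

end Fermat.Agent.S55
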