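import Fermat.Statements.S57
import Fermat.Agent.S57.Transfer

set_option autoImplicit false
open Algebra Algebra.PatchingLevel

namespace Fermat.Agent.S57

theorem result
    {𝒪 : Type} [CommRing 𝒪] [IsDomain 𝒪] [IsDiscreteValuationRing 𝒪]
    {r : ℕ} {R : Type} [CommRing R] [Algebra 𝒪 R]
    {M : Type} [AddCommGroup M] [Module R M] [Nontrivial M]
    (L : Algebra.PatchingLevel 𝒪 r R M ⊥) :
    Module.Free R M ∧ Module.annihilator R M = ⊥ ∧
      RingHom.ker L.ψ = Ideal.span (Set.range fun i : Fin r => L.φ (MvPowerSeries.X i)) := by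
  classical
  obtain ⟨ϖ, hϖ⟩ := IsDiscreteValuationRing.exists_irreducible 𝒪
  have hmax : IsLocalRing.maximalIdeal 𝒪 = Ideal.span {ϖ} := hϖ.maximalIdeal_eq
  have hϖreg : ∀ c, ϖ * c = 0 → c = 0 := fun c hc =>
    (mul_eq_zero.mp hc).resolve_left hϖ.ne_zero
  have hregA := isWeaklyRegular_X_append_C (R := 𝒪) (List.finRange r) (List.nodup_finRange r)
    List.mem_finRange ϖ hϖreg
  have hspanA := ofList_X_append_C_eq_maximalIdeal (R := 𝒪) (List.finRange r)
    List.mem_finRange ϖ hmax
  have hregN := isWeaklyRegular_N L _ hregA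
  have := finite_N L
  have : Nontrivial R := Module.nontrivial R M
  have hmem : ∀ x ∈ ((List.finRange r).map MvPowerSeries.X ++ [MvPowerSeries.C ϖ]).map L.φ,
      x ∈ IsLocalRing.maximalIdeal (MvPowerSeries (Fin r) 𝒪) := by
    intro x hx
    obtain ⟨a, ha, rfl⟩ := List.mem_map.mp hx
    rcases List.mem_append.mp ha with ha | ha
    · obtain ⟨i, _, rfl⟩ := List.mem_map.mp ha
      rw [IsLocalRing.mem_maximalIdeal, mem_nonunits_iff]
      intro hu
      have h1 := hu.map L.ψ
      rw [L.ψ_φ_X] at h1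
      exact not_isUnit_zero h1
    · rw [List.mem_singleton] at ha
      subst ha
      rw [MvPowerSeries.c_eq_algebraMap, AlgHom.commutes, ← MvPowerSeries.c_eq_algebraMap,
        IsLocalRing.mem_maximalIdeal, mem_nonunits_iff, MvPowerSeries.isUnit_iff_constantCoeff,
        MvPowerSeries.constantCoeff_C]
      exact hϖ.not_isUnit
  have hfreeN : Module.Free (MvPowerSeries (Fin r) 𝒪) L.N := by
    refine free_of_isWeaklyRegular
      ((List.finRange r).map MvPowerSeries.X ++ [MvPowerSeries.C ϖ]).toFinset ?_ L.N _ ?_ hmem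
      hregN
    · rw [List.coe_toFinset]
      exact hspanA
    · rw [List.length_map]
      exact List.toFinset_card_le _
  exact descent_of_free L.ψ L.ψ_surjective _
    (Ideal.span_le.mpr (by
      rintro _ ⟨i, rfl⟩
      exact (RingHom.mem_ker).mpr (L.ψ_φ_X i)))
    L.π L.π_smul L.π_surjective L.ker_π

end Fermat.Agent.S57
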