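-- Statement S58 (row 52): level lowering of the modular model to the conductor level.
-- Final assembly: Fermat.Agent.EC.H28.s58_of_specs applied to the row theorems
-- (model side: Fermat.Agent.S36.H18.model36; elliptic-curve side: EC.H15.ecInputs;
-- rows A, C3a, C3b, C3c, D, F, S35 seam).
import Fermat.Statements.S58
import Fermat.Agent.EC.H28_T3Assembly
import Fermat.Agent.EC.H15_ECInputs
import Fermat.Agent.EC.H72_MinLevel
import Fermat.Agent.EC.H53_C3a
import Fermat.Agent.EC.H74_C3b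
import Fermat.Agent.EC.H55_C3c
import Fermat.Agent.EC.H74_Degen
import Fermat.Agent.EC.H97_LevelBook
import Fermat.Agent.EC.H74_S35Seam
import Fermat.Agent.S36.H18_Model36

set_option autoImplicit false
set_option autoImplicit false
open WeierstrassCurve

namespace Fermat.Agent.S58

theorem result
    (W : WeierstrassCurve ℤ) (hss : W.IsSemistableModel) (N : ℕ)
    (p : ℕ) [Fact p.Prime] (hp2 : p ≠ 2) (hirr : W.ModRepIsIrreducible p)
    (hp2N : ¬ p ^ 2 ∣ N)
    (hN : W.IsModularModelOfLevel N) (hbad : ∀ ℓ : ℕ, ℓ.Prime → (ℓ : ℤ) ∣ W.Δ → ℓ ∣ N)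
    (hN3 : ∀ q : ℕ, q.Prime → ¬ q ^ 3 ∣ N) :
    W.IsModularModelOfLevel W.conductorLevel :=
  Fermat.Agent.EC.H28.s58_of_specs Fermat.Agent.S36.H18.model36
    (fun W hΔ => Fermat.Agent.EC.H15.ecInputs W hΔ)
    Fermat.Agent.EC.H72.specA Fermat.Agent.EC.H53.specC3a Fermat.Agent.EC.H74.specC3b
    Fermat.Agent.EC.H55.specC3c Fermat.Agent.EC.H74.specD Fermat.Agent.EC.H97.specF
    Fermat.Agent.EC.H74.specS35 W hss N hN hbad hN3

end Fermat.Agent.S58
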